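import Mathlib
import Fermat.Prelude.Def_FLTPrelim_Modularity
import Fermat.Prelude.Def_CuspForm_IntegralLattice
import Fermat.Prelude.Def_CuspForm_IntegralStructure
import Fermat.Prelude.Def_CuspForm_HeckeAlgebra
import Fermat.Prelude.Thm_CuspForm_intLattice_fg
import Fermat.Prelude.Thm_CuspForm_mem_intLattice_of_mem_heckeAlgebra
import Fermat.Prelude.Thm_ModularFormClass_qCoeff_heckeT
import Fermat.Prelude.Thm_ModularFormClass_qCoeff_heckeU
import Fermat.Prelude.Thm_CongruenceSubgroup_one_mem_strictPeriods_Gamma0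
import Fermat.Prelude.Thm_ModularForm_sturm_bound_Gamma0
import Fermat.Agent.MUL.F3.I2.Kappa.Exists

section MergeWrap_S49_Basic -- from S49/Basic.lean

/-!
# S49, part 1: q-coefficients of weight 2 cusp forms on `Γ₀(N)` as a linear map
-/

set_option autoImplicit false

noncomputable section

namespace Fermat.Agent.S49.Forms

open CongruenceSubgroup ModularFormClass UpperHalfPlane

variable {N : ℕ}

theorem one_mem_periods (N : ℕ) :
    (1 : ℝ) ∈ (Subgroup.map (Matrix.SpecialLinearGroup.mapGL ℝ) (Gamma0 N)).strictPeriods :=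
  CongruenceSubgroup.one_mem_strictPeriods_Gamma0 N

theorem qc_add (f g : CuspForm (Gamma0 N) 2) (n : ℕ) :
    qCoeff ⇑(f + g) n = qCoeff ⇑f n + qCoeff ⇑g n := by
  simp only [qCoeff, FunLike.coe_add]
  rw [ModularForm.qExpansion_add one_pos (one_mem_periods N) f g, map_add]

theorem qc_smul (c : ℂ) (f : CuspForm (Gamma0 N) 2) (n : ℕ) :
    qCoeff ⇑(c • f) n = c * qCoeff ⇑f n := by
  have h1 : ⇑(c • f) = c • ⇑f := by
    ext z
    simp
  simp only [qCoeff, h1]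
  rw [ModularForm.qExpansion_smul one_pos (one_mem_periods N) c f]
  simp

theorem qc_zero_index (f : CuspForm (Gamma0 N) 2) : qCoeff ⇑f 0 = 0 :=
  CuspFormClass.qExpansion_coeff_zero f one_pos (one_mem_periods N)

/-- The q-coefficient map as a `ℂ`-linear map. -/
def qLin (N : ℕ) : CuspForm (Gamma0 N) 2 →ₗ[ℂ] (ℕ → ℂ) where
  toFun f n := qCoeff ⇑f n
  map_add' f g := by
    funext n
    exact qc_add f g n
  map_smul' c f := by
    funext n
    simp only [RingHom.id_apply, Pi.smul_apply, smul_eq_mul]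
    exact qc_smul c f n

@[simp] theorem qLin_apply (f : CuspForm (Gamma0 N) 2) (n : ℕ) : qLin N f n = qCoeff ⇑f n := rfl

theorem qc_sub (f g : CuspForm (Gamma0 N) 2) (n : ℕ) :
    qCoeff ⇑(f - g) n = qCoeff ⇑f n - qCoeff ⇑g n := by
  have := congrFun (map_sub (qLin N) f g) n
  simpa using this

theorem qc_zero_form (n : ℕ) : qCoeff ⇑(0 : CuspForm (Gamma0 N) 2) n = 0 := by
  have := congrFun (map_zero (qLin N)) n
  simpa using this

theorem eq_zero_of_qc [NeZero N] (f : CuspForm (Gamma0 N) 2) (h : ∀ n, qCoeff ⇑f n = 0) :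
    f = 0 := by
  have hmf : (ModularFormClass.modularForm f : ModularForm (Gamma0 N) 2) = 0 := by
    refine ModularForm.sturm_bound_Gamma0 N _ fun n _ ↦ ?_
    simpa [qCoeff] using h n
  have hcoe : (⇑f : ℍ → ℂ) = 0 := by
    have := congrArg (fun F : ModularForm (Gamma0 N) 2 ↦ (⇑F : ℍ → ℂ)) hmf
    simpa using this
  exact DFunLike.coe_injective (hcoe.trans FunLike.coe_zero.symm)

theorem qLin_injective (N : ℕ) [NeZero N] : Function.Injective (qLin N) := by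
  refine (injective_iff_map_eq_zero _).mpr fun f hf ↦ eq_zero_of_qc f fun n ↦ ?_
  simpa using congrFun hf n

theorem qc_heckeT {p : ℕ} (hp : p.Prime) (hpN : ¬ p ∣ N) (f : CuspForm (Gamma0 N) 2) (n : ℕ) :
    qCoeff ⇑(CuspForm.heckeTLin 2 hp hpN f) n =
      qCoeff ⇑f (n * p) + if p ∣ n then (p : ℂ) * qCoeff ⇑f (n / p) else 0 := by
  rw [CuspForm.coe_heckeTLin_apply, ModularFormClass.qCoeff_heckeT f (one_mem_periods N) hp.ne_zero,
    ModularForm.coeffHeckeT_apply]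
  norm_num

theorem qc_heckeU [NeZero N] {p : ℕ} (hp : p.Prime) (hpN : p ∣ N) (f : CuspForm (Gamma0 N) 2)
    (n : ℕ) :
    qCoeff ⇑(CuspForm.heckeULin 2 hpN f) n = qCoeff ⇑f (n * p) := by
  rw [CuspForm.coe_heckeULin_apply, ModularFormClass.qCoeff_heckeU f (one_mem_periods N) hp.ne_zero,
    ModularForm.coeffHeckeU_apply]

end Fermat.Agent.S49.Forms

end
end MergeWrap_S49_Basic

section MergeWrap_F3_EigenChar_Eigenform -- from F3/EigenChar/Eigenform.lean

set_option autoImplicit false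

noncomputable section

namespace Fermat.Agent.F3EC

open CongruenceSubgroup ModularFormClass UpperHalfPlane Fermat.Agent.S49.Forms

variable {N : ℕ}

/-- The Hecke relation `a_{nℓ} + [ℓ ∣ n] ℓ a_{n/ℓ} = a_ℓ a_n` for a normalised eigenform. -/
theorem qCoeff_hecke_relation {g : CuspForm (Gamma0 N) 2} (hg : g.IsNormalizedEigenform)
    {ℓ : ℕ} (hℓ : ℓ.Prime) (hℓN : ¬ ℓ ∣ N) (n : ℕ) :
    qCoeff ⇑g (n * ℓ) + (if ℓ ∣ n then (ℓ : ℂ) * qCoeff ⇑g (n / ℓ) else 0) =
      qCoeff ⇑g ℓ * qCoeff ⇑g n := by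
  rcases Nat.eq_zero_or_pos n with rfl | hn
  · simp [qc_zero_index]
  obtain ⟨r, m, hm, rfl⟩ := Nat.exists_eq_pow_mul_and_not_dvd hn.ne' ℓ hℓ.ne_one
  have hcop : ∀ s : ℕ, Nat.Coprime (ℓ ^ s) m := fun s =>
    Nat.Coprime.pow_left s ((Nat.Prime.coprime_iff_not_dvd hℓ).mpr hm)
  rcases r with _ | s
  · -- ℓ ∤ n
    have hnd : ¬ ℓ ∣ ℓ ^ 0 * m := by simpa using hm
    rw [if_neg hnd, add_zero]
    have h1 : ℓ ^ 0 * m * ℓ = ℓ * m := by ring
    have h2 : ℓ ^ 0 * m = m := by ring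
    rw [h1, h2, hg.qCoeff_mul_of_coprime ℓ m ((Nat.Prime.coprime_iff_not_dvd hℓ).mpr hm)]
  · have hd : ℓ ∣ ℓ ^ (s + 1) * m := Dvd.dvd.mul_right (dvd_pow_self ℓ (Nat.succ_ne_zero s)) m
    rw [if_pos hd]
    have h1 : ℓ ^ (s + 1) * m * ℓ = ℓ ^ (s + 2) * m := by ring
    have h2 : ℓ ^ (s + 1) * m / ℓ = ℓ ^ s * m := by
      rw [pow_succ, mul_assoc, mul_comm ℓ m, ← mul_assoc]
      exact Nat.mul_div_cancel _ hℓ.pos
    rw [h1, h2, hg.qCoeff_mul_of_coprime _ _ (hcop (s + 2)),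
      hg.qCoeff_mul_of_coprime _ _ (hcop s), hg.qCoeff_mul_of_coprime _ _ (hcop (s + 1)),
      hg.qCoeff_prime_pow_of_not_dvd ℓ s hℓ hℓN]
    ring

/-- A normalised eigenform is an eigenvector of `T_ℓ` (`ℓ ∤ N`) with eigenvalue `a_ℓ`. -/
theorem heckeTLin_eq_smul [NeZero N] {g : CuspForm (Gamma0 N) 2} (hg : g.IsNormalizedEigenform)
    {ℓ : ℕ} (hℓ : ℓ.Prime) (hℓN : ¬ ℓ ∣ N) :
    CuspForm.heckeTLin 2 hℓ hℓN g = qCoeff ⇑g ℓ • g := by
  apply qLin_injective N
  funext n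
  rw [qLin_apply, qLin_apply, qc_heckeT, qc_smul]
  exact qCoeff_hecke_relation hg hℓ hℓN n

theorem ne_zero_of_isNormalizedEigenform {g : CuspForm (Gamma0 N) 2}
    (hg : g.IsNormalizedEigenform) : g ≠ 0 := by
  intro h
  have h1 := hg.qCoeff_one
  rw [h, qc_zero_form] at h1
  exact zero_ne_one h1

end Fermat.Agent.F3EC
end
end MergeWrap_F3_EigenChar_Eigenform
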