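import Fermat.Agent.MUL.Orig.F3.EigenChar.Defs
import Fermat.Agent.MUL.Orig.S22.GammaFG
import Fermat.Agent.MUL.Orig.S22.HeckeT
import Fermat.Agent.MUL.S21.Parabolic
import Fermat.Agent.MUL.S21.Injective
import Fermat.Agent.MUL.F3.EigenChar.Eigenform
import Fermat.Agent.MUL.F3.EigenclassGlue
import Fermat.Agent.MUL.S21.ReInvariant
import Fermat.Agent.MUL.Orig.Lib.Torsion.LadderDegree

section MergeWrap_F3_EigenChar_Lattice -- from F3/EigenChar/Lattice.lean

set_option autoImplicit false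

noncomputable section

namespace Fermat.Agent.F3EC

open CongruenceSubgroup ModularCurve.Period
open scoped MatrixGroups TensorProduct

variable {N : ℕ}

/-! ### Homomorphisms are determined on generators -/

/-- If a homomorphism `Γ → A` vanishes on a generating set it vanishes. -/
theorem hom_eq_zero_of_closure {Γ : Type*} [Group Γ] {A : Type*} [AddCommGroup A]
    (c : Additive Γ →+ A) {S : Set Γ} (hS : Subgroup.closure S = ⊤)
    (h : ∀ s ∈ S, c (Additive.ofMul s) = 0) : c = 0 := by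
  let K : Subgroup Γ :=
    { carrier := {γ | c (Additive.ofMul γ) = 0}
      one_mem' := by simp
      mul_mem' := by
        intro a b ha hb
        simp only [Set.mem_ofPred_eq] at ha hb ⊢
        rw [ofMul_mul, map_add, ha, hb, add_zero]
      inv_mem' := by
        intro a ha
        simp only [Set.mem_ofPred_eq] at ha ⊢
        rw [ofMul_inv, map_neg, ha, neg_zero] }
  have hK : K = ⊤ := by
    rw [eq_top_iff, ← hS, Subgroup.closure_le]
    exact h
  refine AddMonoidHom.ext fun γ => ?_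
  have : Additive.toMul γ ∈ K := by rw [hK]; exact Subgroup.mem_top _
  exact this

/-- Evaluation of homomorphisms `Γ → A` at the points of a set, as an `R`-linear map. -/
def evalOn {Γ : Type*} [Group Γ] (R : Type*) [Semiring R] (A : Type*) [AddCommGroup A] [Module R A]
    (S : Set Γ) : (Additive Γ →+ A) →ₗ[R] (S → A) where
  toFun c s := c (Additive.ofMul (s : Γ))
  map_add' _ _ := rfl
  map_smul' _ _ := rfl

@[simp] theorem evalOn_apply {Γ : Type*} [Group Γ] (R : Type*) [Semiring R] (A : Type*)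
    [AddCommGroup A] [Module R A] (S : Set Γ) (c : Additive Γ →+ A) (s : S) :
    evalOn R A S c s = c (Additive.ofMul (s : Γ)) := rfl

theorem evalOn_injective {Γ : Type*} [Group Γ] (R : Type*) [Semiring R] (A : Type*)
    [AddCommGroup A] [Module R A] {S : Set Γ} (hS : Subgroup.closure S = ⊤) :
    Function.Injective (evalOn R A S) := by
  rw [injective_iff_map_eq_zero]
  intro c hc
  apply hom_eq_zero_of_closure c hS
  intro s hs
  exact congrFun hc ⟨s, hs⟩

/-! ### `HomPar N` is finite free over `ℤ` -/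

theorem exists_finite_generators (N : ℕ) [NeZero N] :
    ∃ S : Set (Gamma0 N), S.Finite ∧ Subgroup.closure S = ⊤ := by
  have h := Fermat.Agent.S22.fg_Gamma0 N
  rw [Group.fg_iff] at h
  obtain ⟨S, hS, hfin⟩ := h
  exact ⟨S, hfin, hS⟩

instance instFiniteHomAll (N : ℕ) [NeZero N] : Module.Finite ℤ (Additive (Gamma0 N) →+ ℤ) := by
  obtain ⟨S, hfin, hS⟩ := exists_finite_generators N
  have : Finite S := hfin
  exact Module.Finite.of_injective (evalOn ℤ ℤ S) (evalOn_injective ℤ ℤ hS)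

instance instFiniteHomPar (N : ℕ) [NeZero N] : Module.Finite ℤ (HomPar N) :=
  Module.Finite.of_injective (parabolicHoms ℤ (Gamma0 N) ℤ).subtype Subtype.val_injective

instance instTorsionFreeHomAll (Γ : Type*) [Group Γ] :
    Module.IsTorsionFree ℤ (Additive Γ →+ ℤ) :=
  Function.Injective.moduleIsTorsionFree (N := Γ → ℤ)
    (fun c γ => c (Additive.ofMul γ))
    (fun _ _ h => AddMonoidHom.ext fun γ => congrFun h (Additive.toMul γ))
    (fun _ _ => rfl)

instance instTorsionFreeHomPar (N : ℕ) : Module.IsTorsionFree ℤ (HomPar N) :=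
  Function.Injective.moduleIsTorsionFree (parabolicHoms ℤ (Gamma0 N) ℤ).subtype
    Subtype.val_injective (fun _ _ => rfl)

instance instFreeHomPar (N : ℕ) [NeZero N] : Module.Free ℤ (HomPar N) :=
  Module.free_of_finite_type_torsion_free'

/-! ### The comparison map `ℂ ⊗ HomPar N → Hom(Γ₀(N), ℂ)` -/

/-- Coefficient change `ℤ → ℂ` on homomorphisms. -/
def castHom (N : ℕ) : (Additive (Gamma0 N) →+ ℤ) →ₗ[ℤ] (Additive (Gamma0 N) →+ ℂ) where
  toFun c := (Int.castAddHom ℂ).comp c
  map_add' c d := by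
    ext γ
    simp
  map_smul' m c := by
    ext γ
    simp

@[simp] theorem castHom_apply (c : Additive (Gamma0 N) →+ ℤ) (γ : Additive (Gamma0 N)) :
    castHom N c γ = ((c γ : ℤ) : ℂ) := rfl

/-- The inclusion `HomPar N → Hom(Γ₀(N), ℂ)`. -/
def homParCast (N : ℕ) : HomPar N →ₗ[ℤ] (Additive (Gamma0 N) →+ ℂ) :=
  (castHom N).comp (parabolicHoms ℤ (Gamma0 N) ℤ).subtype

@[simp] theorem homParCast_apply (c : HomPar N) (γ : Additive (Gamma0 N)) :
    homParCast N c γ = (((c : Additive (Gamma0 N) →+ ℤ) γ : ℤ) : ℂ) := rfl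

/-- The comparison map `Ψ : ℂ ⊗ HomPar N → Hom(Γ₀(N), ℂ)`, `z ⊗ c ↦ z • c`. -/
def compMap (N : ℕ) : ℂ ⊗[ℤ] HomPar N →ₗ[ℂ] (Additive (Gamma0 N) →+ ℂ) :=
  (homParCast N).liftBaseChange ℂ

@[simp] theorem compMap_tmul (z : ℂ) (c : HomPar N) (γ : Additive (Gamma0 N)) :
    compMap N (z ⊗ₜ[ℤ] c) γ = z * (((c : Additive (Gamma0 N) →+ ℤ) γ : ℤ) : ℂ) := by
  simp [compMap, LinearMap.liftBaseChange_tmul]

theorem compMap_injective (N : ℕ) [NeZero N] : Function.Injective (compMap N) := by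
  classical
  obtain ⟨S, hfin, hS⟩ := exists_finite_generators N
  have : Fintype S := hfin.fintype
  set evZ : HomPar N →ₗ[ℤ] (S → ℤ) :=
    (evalOn ℤ ℤ S).comp (parabolicHoms ℤ (Gamma0 N) ℤ).subtype with hevZ
  have hevZ_inj : Function.Injective evZ :=
    (evalOn_injective ℤ ℤ hS).comp Subtype.val_injective
  have hL : Function.Injective (LinearMap.lTensor ℂ evZ) :=
    Module.Flat.lTensor_preserves_injective_linearMap evZ hevZ_inj
  have key : ∀ t : ℂ ⊗[ℤ] HomPar N,
      TensorProduct.piScalarRight ℤ ℂ ℂ S (LinearMap.lTensor ℂ evZ t) =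
        evalOn ℂ ℂ S (compMap N t) := by
    intro t
    induction t using TensorProduct.induction_on with
    | zero => simp
    | tmul z c =>
      funext s
      simp [hevZ, mul_comm]
    | add x y hx hy => simp only [map_add, hx, hy]
  rw [injective_iff_map_eq_zero]
  intro t ht
  have h1 := key t
  rw [ht, map_zero] at h1
  have h2 : LinearMap.lTensor ℂ evZ t = 0 :=
    (TensorProduct.piScalarRight ℤ ℂ ℂ S).injective (by rw [h1, map_zero])
  exact hL (by rw [h2, map_zero])

/-- Every parabolic homomorphism `Γ₀(N) → ℂ` is a `ℂ`-linear combination of `ℤ`-valued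
parabolic homomorphisms. -/
theorem mem_range_compMap (N : ℕ) [NeZero N] {c : Additive (Gamma0 N) →+ ℂ}
    (hc : IsParabolicHom (Gamma0 N) c) : c ∈ LinearMap.range (compMap N) := by
  classical
  obtain ⟨S, hfin, hS⟩ := exists_finite_generators N
  -- the finitely generated subgroup of `ℂ` containing all values of `c`
  set B : Submodule ℤ ℂ := Submodule.span ℤ ((fun s : Gamma0 N => c (Additive.ofMul s)) '' S)
    with hB
  have hBfg : B.FG := Submodule.fg_span (hfin.image _)
  have hmem : ∀ γ : Additive (Gamma0 N), c γ ∈ B := by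
    let K : Subgroup (Gamma0 N) :=
      { carrier := {γ | c (Additive.ofMul γ) ∈ B}
        one_mem' := by simp
        mul_mem' := by
          intro a b ha hb
          simp only [Set.mem_ofPred_eq] at ha hb ⊢
          rw [ofMul_mul, map_add]
          exact B.add_mem ha hb
        inv_mem' := by
          intro a ha
          simp only [Set.mem_ofPred_eq] at ha ⊢
          rw [ofMul_inv, map_neg]
          exact B.neg_mem ha }
    have hK : K = ⊤ := by
      rw [eq_top_iff, ← hS, Subgroup.closure_le]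
      intro s hs
      exact Submodule.subset_span ⟨s, hs, rfl⟩
    intro γ
    have : Additive.toMul γ ∈ K := by rw [hK]; exact Subgroup.mem_top _
    exact this
  have : Module.Finite ℤ B := Module.Finite.of_fg hBfg
  have : Module.IsTorsionFree ℤ B :=
    Function.Injective.moduleIsTorsionFree B.subtype Subtype.val_injective (fun _ _ => rfl)
  have : Module.Free ℤ B := Module.free_of_finite_type_torsion_free'
  let e := Module.Free.chooseBasis ℤ B
  have : Fintype (Module.Free.ChooseBasisIndex ℤ B) := Module.Free.ChooseBasisIndex.fintype ℤ B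
  -- corestriction of `c` to `B`
  let c' : Additive (Gamma0 N) →+ B :=
    { toFun := fun γ => ⟨c γ, hmem γ⟩
      map_zero' := by ext; simp
      map_add' := fun a b => by ext; simp }
  -- coordinates
  let coord : Module.Free.ChooseBasisIndex ℤ B → (Additive (Gamma0 N) →+ ℤ) := fun k =>
    ((Finsupp.lapply k ∘ₗ e.repr.toLinearMap : B →ₗ[ℤ] ℤ).toAddMonoidHom).comp c'
  have hcoord : ∀ k γ, coord k γ = e.repr (c' γ) k := fun k γ => rfl
  have hpar : ∀ k, coord k ∈ parabolicHoms ℤ (Gamma0 N) ℤ := by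
    intro k γ hγ
    have h0 : c' (Additive.ofMul γ) = 0 := by
      ext
      exact hc γ hγ
    rw [hcoord, h0]
    simp
  refine ⟨∑ k, ((e k : B) : ℂ) ⊗ₜ[ℤ] (⟨coord k, hpar k⟩ : HomPar N), ?_⟩
  refine AddMonoidHom.ext fun γ => ?_
  rw [map_sum, AddMonoidHom.finsetSum_apply]
  have hrepr := e.sum_repr (c' γ)
  have h2 : ∑ k, (e.repr (c' γ) k) • ((e k : B) : ℂ) = c γ := by
    have h3 : ((∑ k, e.repr (c' γ) k • e k : B) : ℂ) = ((c' γ : B) : ℂ) :=
      congrArg (fun x : B => (x : ℂ)) hrepr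
    rw [Submodule.coe_sum] at h3
    simp only [Submodule.coe_smul] at h3
    exact h3
  rw [← h2]
  refine Finset.sum_congr rfl fun k _ => ?_
  rw [compMap_tmul, hcoord, zsmul_eq_mul, mul_comm]

end Fermat.Agent.F3EC
end
end MergeWrap_F3_EigenChar_Lattice

section MergeWrap_F3_EigenChar_Period -- from F3/EigenChar/Period.lean

set_option autoImplicit false

noncomputable section

namespace Fermat.Agent.F3EC

open CongruenceSubgroup Matrix.SpecialLinearGroup ModularCurve ModularCurve.Period UpperHalfPlane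
open scoped MatrixGroups ModularForm Manifold
open P2MW.S_ModularForm_heckeT_slash_eq_self_of_mem_Gamma0.ModularForm.HeckeSlashInvariance

variable {N : ℕ} [NeZero N]

/-- The Eichler integral of S22 (weight `2`, i.e. `m = 0`) is the equivariant primitive of S21. -/
theorem eichler_eq_of_hasEquivariantPrimitive (f : CuspForm (Gamma0 N) 2) {F : ℍ → ℂ}
    (hF : HasEquivariantPrimitive N f F) :
    Fermat.Agent.S22.eichler (N := N) (m := 0) f = F := by
  apply Fermat.Agent.S22.eichler_eq (N := N) (m := 0) (f := f)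
  · exact Fermat.Agent.S21.mdiff_of_hasDerivAt hF.1
  · have := Fermat.Agent.S22.dH_eq_of_hasDerivAt hF.1
    simpa using this
  · exact hF.2.1

/-- weight `0` slash action of an element of `SL(2, ℤ)` is composition. -/
theorem slash_zero_mapGL_apply (E : ℍ → ℂ) (γ : SL(2, ℤ)) (τ : ℍ) :
    (E ∣[-((0 : ℕ) : ℤ)] (mapGL ℝ γ)) τ = E (γ • τ) := by
  rw [ModularForm.slash_apply]
  have hdet : (mapGL ℝ γ : GL (Fin 2) ℝ).det.val = 1 := by simp
  have hσ (x : ℂ) : σ (mapGL ℝ γ : GL (Fin 2) ℝ) x = x := by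
    simp [σ]
  rw [hσ, hdet]
  simp only [abs_one, Nat.cast_zero, neg_zero, zero_sub, zpow_zero, mul_one,
    one_zpow, Complex.ofReal_one]
  rfl

theorem periodFun_apply (f : CuspForm (Gamma0 N) 2) {F : ℍ → ℂ}
    (hF : HasEquivariantPrimitive N f F) (γ : Gamma0 N) (τ : ℍ) :
    Fermat.Agent.S22.periodFun (N := N) (m := 0) (γ : SL(2, ℤ)) f τ =
      periodMap N f (Additive.ofMul γ) := by
  rw [Fermat.Agent.S22.periodFun, Pi.sub_apply, slash_zero_mapGL_apply,
    eichler_eq_of_hasEquivariantPrimitive f hF, Fermat.Agent.S21.periodMap_apply N f hF]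
  have h1 := hF.2.2.1.sub_eq_period γ τ
  have h2 := hF.2.2.1.sub_eq_period γ UpperHalfPlane.I
  rw [h1, h2]

/-- weight `0` slash action of a Hecke representative on a constant function. -/
theorem slash_zero_heckeRep_const {ℓ : ℕ} (hℓ : ℓ ≠ 0) (y : OnePoint (ZMod ℓ)) (c : ℂ) (τ : ℍ) :
    ((ℓ : ℂ) ^ (0 + 1)) • (((fun _ : ℍ => c) ∣[-((0 : ℕ) : ℤ)] heckeRep ℓ y) τ) = c := by
  rw [ModularForm.slash_apply]
  have hdet : (heckeRep ℓ y).det.val = (ℓ : ℝ) := by
    rw [Matrix.GeneralLinearGroup.val_det_apply]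
    exact Fermat.Agent.S22.val_det_heckeRep hℓ y
  have hpos : (0 : ℝ) < (heckeRep ℓ y).det.val := by
    rw [hdet]; exact_mod_cast Nat.pos_of_ne_zero hℓ
  have hpos' : 0 < (heckeRep ℓ y).val.det := by
    rw [Fermat.Agent.S22.val_det_heckeRep hℓ y]; exact_mod_cast Nat.pos_of_ne_zero hℓ
  have hσ (x : ℂ) : σ (heckeRep ℓ y) x = x :=
    Fermat.Agent.S22.sigma_eq_self_of_det_pos hpos' x
  have hℓ' : (ℓ : ℂ) ≠ 0 := by exact_mod_cast hℓ
  rw [hσ, hdet]
  simp only [Nat.cast_zero, neg_zero, zero_sub, zpow_zero, mul_one, zero_add,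
    pow_one, smul_eq_mul]
  rw [abs_of_pos (by exact_mod_cast Nat.pos_of_ne_zero hℓ : (0 : ℝ) < (ℓ : ℝ))]
  push_cast
  field_simp

/-- **Hecke-equivariance of the period map.** -/
theorem periodMap_heckeT {ℓ : ℕ} [Fact ℓ.Prime] (hℓ : ℓ.Prime) (hℓN : ¬ ℓ ∣ N)
    (f : CuspForm (Gamma0 N) 2) :
    periodMap N (CuspForm.heckeTLin 2 hℓ hℓN f) = heckeHomAll hℓN ℂ (periodMap N f) := by
  obtain ⟨F, hF⟩ := Fermat.Agent.S21.exists_hasEquivariantPrimitive N f
  obtain ⟨G, hG⟩ := Fermat.Agent.S21.exists_hasEquivariantPrimitive N (CuspForm.heckeTLin 2 hℓ hℓN f)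
  refine AddMonoidHom.ext fun γ => ?_
  obtain ⟨γ, rfl⟩ := Additive.ofMul.surjective γ
  rw [heckeHomAll_apply, ← periodFun_apply _ hG γ UpperHalfPlane.I]
  have key := Fermat.Agent.S22.periodFun_heckeT (N := N) (m := 0) hℓ hℓN γ f
    (fun x => heckeCoset hℓN γ x) (fun x => heckeCoset_spec hℓN γ x)
  have key2 := congrFun key UpperHalfPlane.I
  refine key2.trans ?_
  rw [Finset.sum_apply]
  refine Finset.sum_congr rfl fun x _ => ?_
  have hconst : Fermat.Agent.S22.periodFun (N := N) (m := 0)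
      ((heckeCoset hℓN γ x : Gamma0 N) : SL(2, ℤ)) f =
      fun _ : ℍ => periodMap N f (Additive.ofMul (heckeCoset hℓN γ x)) := by
    funext τ
    exact periodFun_apply f hF _ τ
  rw [hconst, Pi.smul_apply]
  exact slash_zero_heckeRep_const hℓ.ne_zero _ _ _

end Fermat.Agent.F3EC
end
end MergeWrap_F3_EigenChar_Period

section MergeWrap_F3_EigenChar_PeriodEigen -- from F3/EigenChar/PeriodEigen.lean

set_option autoImplicit false

noncomputable section

namespace Fermat.Agent.F3EC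

open CongruenceSubgroup ModularCurve ModularCurve.Period UpperHalfPlane ModularFormClass
open scoped MatrixGroups TensorProduct

variable {N : ℕ}

/-! ### `T_ℓ` and the comparison map -/

theorem heckeHomAll_smul {ℓ : ℕ} [Fact ℓ.Prime] (hℓN : ¬ ℓ ∣ N) (z : ℂ)
    (c : Additive (Gamma0 N) →+ ℂ) :
    heckeHomAll hℓN ℂ (z • c) = z • heckeHomAll hℓN ℂ c := by
  refine AddMonoidHom.ext fun γ => ?_
  obtain ⟨γ, rfl⟩ := Additive.ofMul.surjective γ
  simp [Finset.mul_sum]

theorem heckeHomAll_castHom {ℓ : ℕ} [Fact ℓ.Prime] (hℓN : ¬ ℓ ∣ N)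
    (c : Additive (Gamma0 N) →+ ℤ) :
    heckeHomAll hℓN ℂ (castHom N c) = castHom N (heckeHomAll hℓN ℤ c) := by
  refine AddMonoidHom.ext fun γ => ?_
  obtain ⟨γ, rfl⟩ := Additive.ofMul.surjective γ
  simp

theorem compMap_heckeHom (ℓ : Nat.Primes) (hℓN : ¬ (ℓ : ℕ) ∣ N) (t : ℂ ⊗[ℤ] HomPar N) :
    haveI : Fact (ℓ : ℕ).Prime := ⟨ℓ.2⟩
    compMap N ((heckeHom N ℓ).baseChange ℂ t) = heckeHomAll hℓN ℂ (compMap N t) := by
  have : Fact (ℓ : ℕ).Prime := ⟨ℓ.2⟩
  induction t using TensorProduct.induction_on with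
  | zero => simp
  | tmul z c =>
    rw [LinearMap.baseChange_tmul]
    have h1 : compMap N (z ⊗ₜ[ℤ] c) = z • homParCast N c := by
      simp [compMap, LinearMap.liftBaseChange_tmul]
    have h2 : compMap N (z ⊗ₜ[ℤ] heckeHom N ℓ c) = z • homParCast N (heckeHom N ℓ c) := by
      simp [compMap, LinearMap.liftBaseChange_tmul]
    rw [h1, h2, heckeHomAll_smul]
    congr 1
    show castHom N ((heckeHom N ℓ c : HomPar N) : Additive (Gamma0 N) →+ ℤ) =
      heckeHomAll hℓN ℂ (castHom N (c : Additive (Gamma0 N) →+ ℤ))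
    rw [heckeHom_coe ℓ hℓN, heckeHomAll_castHom]
  | add x y hx hy => simp only [map_add, hx, hy]

/-! ### The period map -/

theorem periodMap_smul (N : ℕ) [NeZero N] (z : ℂ) (f : CuspForm (Gamma0 N) 2) :
    periodMap N (z • f) = z • periodMap N f := by
  obtain ⟨pml, hpml⟩ := Fermat.Agent.S21.existsPeriodMapLinear N
  rw [← hpml, ← hpml, map_smul]

theorem periodMap_zero (N : ℕ) [NeZero N] : periodMap N (0 : CuspForm (Gamma0 N) 2) = 0 := by
  obtain ⟨pml, hpml⟩ := Fermat.Agent.S21.existsPeriodMapLinear N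
  rw [← hpml, map_zero]

theorem periodMap_ne_zero (N : ℕ) [NeZero N] {f : CuspForm (Gamma0 N) 2} (hf : f ≠ 0) :
    periodMap N f ≠ 0 := by
  intro h0
  have hC : Fermat.Agent.S21.ReInvariantConst N := fun hH hinv hcusp =>
    Fermat.Agent.S21.const_of_re_invariant (Γ := Gamma0 N) (N := N)
      (Fermat.Agent.S21.Gamma_le_Gamma0 N) hH hinv hcusp
  have hinj := Fermat.Agent.S21.periodHomPair_injective N hC
  have h1 : periodHomPair N (f, 0) = periodHomPair N (0, 0) := by
    rw [Fermat.Agent.S21.periodHomPair_apply, Fermat.Agent.S21.periodHomPair_apply, h0,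
      periodMap_zero]
  have h2 := hinj h1
  exact hf (congrArg Prod.fst h2)

/-! ### The eigenvector -/

theorem exists_period_eigenvector (N : ℕ) [NeZero N] {g : CuspForm (Gamma0 N) 2}
    (hg : g.IsNormalizedEigenform) :
    ∃ v : ℂ ⊗[ℤ] HomPar N, v ≠ 0 ∧
      ∀ ℓ : Nat.Primes, ¬ (ℓ : ℕ) ∣ N →
        (heckeHom N ℓ).baseChange ℂ v = (qCoeff ⇑g ℓ) • v := by
  obtain ⟨v, hv⟩ := mem_range_compMap N
    (mem_parabolicHoms_iff.mp (Fermat.Agent.S21.periodMap_mem_parabolicHoms N g))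
  refine ⟨v, ?_, fun ℓ hℓN => ?_⟩
  · intro h0
    rw [h0, map_zero] at hv
    exact periodMap_ne_zero N (ne_zero_of_isNormalizedEigenform hg) hv.symm
  · have : Fact (ℓ : ℕ).Prime := ⟨ℓ.2⟩
    apply compMap_injective N
    rw [compMap_heckeHom ℓ hℓN, map_smul, hv, ← periodMap_heckeT ℓ.2 hℓN,
      heckeTLin_eq_smul hg ℓ.2 hℓN, periodMap_smul]

/-- The eigenvalues `a_ℓ(g)`, `ℓ ∤ N`, of a normalised eigenform are algebraic integers. -/
theorem isIntegral_qCoeff (N : ℕ) [NeZero N] {g : CuspForm (Gamma0 N) 2}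
    (hg : g.IsNormalizedEigenform) (ℓ : Nat.Primes) (hℓN : ¬ (ℓ : ℕ) ∣ N) :
    IsIntegral ℤ (qCoeff ⇑g ℓ) := by
  obtain ⟨v, hv0, hv⟩ := exists_period_eigenvector N hg
  have hev : Module.End.HasEigenvalue ((heckeHom N ℓ).baseChange ℂ) (qCoeff ⇑g ℓ) :=
    Module.End.hasEigenvalue_of_hasEigenvector
      ⟨Module.End.mem_eigenspace_iff.mpr (hv ℓ hℓN), hv0⟩
  have hroot := (Module.End.hasEigenvalue_iff_isRoot_charpoly _ _).mp hev
  rw [LinearMap.charpoly_baseChange] at hroot
  refine ⟨(heckeHom N ℓ).charpoly, LinearMap.charpoly_monic _, ?_⟩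
  rw [Polynomial.IsRoot.def, Polynomial.eval_map] at hroot
  exact hroot

/-- **(A5)** `F3.PeriodEigen N`. -/
theorem periodEigen (N : ℕ) [NeZero N] : Fermat.Agent.F3.PeriodEigen N := by
  classical
  intro g hg
  obtain ⟨v, hv0, hv⟩ := exists_period_eigenvector N hg
  refine ⟨fun ℓ => if h : ¬ (ℓ : ℕ) ∣ N then ⟨qCoeff ⇑g ℓ, isIntegral_qCoeff N hg ℓ h⟩ else 0,
    fun ℓ hℓN => ?_, v, hv0, fun ℓ hℓN => ?_⟩
  · simp only [dif_pos hℓN]
  · simp only [dif_pos hℓN]
    exact hv ℓ hℓN

end Fermat.Agent.F3EC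
end
end MergeWrap_F3_EigenChar_PeriodEigen
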